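import Fermat.Agent.LT.T6.H75.EllTwSpec
import Fermat.Agent.LT.T6.H905.IwaHomeoC
import Fermat.Agent.LT.T6.H965.U2Compact

/-!
# Row LT, tower T6, leaf T6.20e.2e.6 `H75.BoxCC75` (helper142): THE PROOF

OFF-MAIN.  `boxCC142 : H75.BoxCC75`, VERBATIM the `Prop` of `LT/T6/H75/EllTwSpec.lean`
(helper75@d1103eba8, sha256 18e9b693).  Complete proofs, nothing assumed.

`iwaC` is continuous, hence measurable; the parameter box `B = [0,1] × [0,1] × D̄ × U(2)` is compact
(`H965.isCompact_U2965`), so `boxC634 = iwaC '' B` is compact, closed, Borel.  By the uniqueness of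
the Iwasawa decomposition (`H905.iwaHomeo905`) `B ⊆ iwaC⁻¹(boxC634) ⊆ B ∪ {k ∉ U(2)}`, and the
last set is a null set (`IsU2Haar.supp`).  `vol (D̄) = π`, `κ (U(2)) = 1`.
-/

set_option autoImplicit false

open scoped Matrix ENNReal
open MeasureTheory

noncomputable section

namespace Fermat.Agent.LT.T6.H142

open Fermat.Agent.LT.T6 Fermat.Agent.LT.T6.H189 Fermat.Agent.LT.T6.H634
open Fermat.Agent.LT.T6.H905 Fermat.Agent.LT.T6.H965

/-- `iwaC` in terms of the Borel part. -/
theorem iwaC_eq142 (p : ℝ × ℝ × ℂ × GL (Fin 2) ℂ) :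
    iwaC p = bor905 (p.1, p.2.1, p.2.2.1) * p.2.2.2 := rfl

theorem continuous_iwaC142 : Continuous iwaC := by
  have h1 : Continuous fun p : ℝ × ℝ × ℂ × GL (Fin 2) ℂ => bor905 (p.1, p.2.1, p.2.2.1) :=
    continuous_bor905.comp (continuous_fst.prodMk
      ((continuous_fst.comp continuous_snd).prodMk
        (continuous_fst.comp (continuous_snd.comp continuous_snd))))
  have h2 : Continuous fun p : ℝ × ℝ × ℂ × GL (Fin 2) ℂ => p.2.2.2 :=
    continuous_snd.comp (continuous_snd.comp continuous_snd)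
  exact h1.mul h2

/-- The parameter box. -/
def pBox142 : Set (ℝ × ℝ × ℂ × GL (Fin 2) ℂ) :=
  Set.Icc (0 : ℝ) 1 ×ˢ Set.Icc (0 : ℝ) 1 ×ˢ Metric.closedBall (0 : ℂ) 1 ×ˢ U2

theorem boxC634_eq142 : boxC634 = iwaC '' pBox142 := rfl

theorem isCompact_pBox142 : IsCompact pBox142 :=
  isCompact_Icc.prod (isCompact_Icc.prod ((isCompact_closedBall (0 : ℂ) 1).prod isCompact_U2965))

theorem t2Space_GL142 : T2Space (GL (Fin 2) ℂ) := isEmbedding_valGL905.t2Space

theorem isClosed_boxC142 : IsClosed boxC634 := by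
  haveI := t2Space_GL142
  rw [boxC634_eq142]
  exact (isCompact_pBox142.image continuous_iwaC142).isClosed

/-- Uniqueness of the Iwasawa decomposition: the preimage of the box is the box, up to the
parameters with `k ∉ U(2)`. -/
theorem preimage_box_subset142 :
    iwaC ⁻¹' boxC634 ⊆ pBox142 ∪ {p | p.2.2.2 ∉ U2} := by
  intro p hp
  by_cases hk : p.2.2.2 ∈ U2
  · left
    obtain ⟨p', hp', hpp'⟩ := hp
    obtain ⟨h1, h2, h3, h4⟩ := hp'
    have hinj := iwaHomeo905.injective
    have e : jC (p'.1, p'.2.1, p'.2.2.1, ⟨p'.2.2.2, h4⟩) = jC (p.1, p.2.1, p.2.2.1, ⟨p.2.2.2, hk⟩) :=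
      hpp'
    have e2 := hinj e
    simp only [Prod.mk.injEq, Subtype.mk.injEq] at e2
    obtain ⟨e1, e2, e3, e4⟩ := e2
    refine ⟨?_, ?_, ?_, ?_⟩
    · rw [← e1]; exact h1
    · rw [← e2]; exact h2
    · rw [← e3]; exact h3
    · rw [← e4]; exact h4
  · right
    exact hk

/-- **T6.20e.2e.6**, verbatim `H75.BoxCC75`. -/
theorem boxCC142 : H75.BoxCC75 := by
  intro κ hκ μ' c hμ'
  letI : MeasurableSpace (GL (Fin 2) ℂ) := borel _
  haveI : BorelSpace (GL (Fin 2) ℂ) := ⟨rfl⟩
  haveI : IsFiniteMeasure κ := ⟨by rw [hκ.prob]; exact ENNReal.one_lt_top⟩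
  have hmeas : Measurable iwaC := continuous_iwaC142.measurable
  have hbox : MeasurableSet boxC634 := isClosed_boxC142.measurableSet
  -- `κ (U2) = 1`
  have hU2 : κ U2 = 1 := by
    apply le_antisymm
    · rw [← hκ.prob]; exact measure_mono (Set.subset_univ _)
    · have h1 : κ Set.univ ≤ κ U2 + κ U2ᶜ := by
        rw [← Set.union_compl_self U2]; exact measure_union_le _ _
      rw [hκ.prob, hκ.supp, add_zero] at h1
      exact h1
  -- the measure of the parameter box
  have hB : (iwaMC κ) pBox142 = ENNReal.ofReal Real.pi := by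
    unfold iwaMC pBox142
    rw [Measure.prod_prod, Measure.prod_prod, Measure.prod_prod, Real.volume_Icc,
      Complex.volume_closedBall, hU2]
    simp only [sub_zero, ENNReal.ofReal_one, one_pow, one_mul, mul_one]
    rw [← NNReal.coe_real_pi, ENNReal.ofReal_coe_nnreal]
  -- the null set
  have hN : (iwaMC κ) {p | p.2.2.2 ∉ U2} = 0 := by
    have e : {p : ℝ × ℝ × ℂ × GL (Fin 2) ℂ | p.2.2.2 ∉ U2}
        = Set.univ ×ˢ Set.univ ×ˢ Set.univ ×ˢ U2ᶜ := by
      ext p
      simp
    rw [e]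
    unfold iwaMC
    rw [Measure.prod_prod, Measure.prod_prod, Measure.prod_prod, hκ.supp, mul_zero, mul_zero,
      mul_zero]
  have hP : (iwaMC κ) (iwaC ⁻¹' boxC634) = ENNReal.ofReal Real.pi := by
    apply le_antisymm
    · calc (iwaMC κ) (iwaC ⁻¹' boxC634)
          ≤ (iwaMC κ) (pBox142 ∪ {p | p.2.2.2 ∉ U2}) := measure_mono preimage_box_subset142
        _ ≤ (iwaMC κ) pBox142 + (iwaMC κ) {p | p.2.2.2 ∉ U2} := measure_union_le _ _
        _ = ENNReal.ofReal Real.pi := by rw [hB, hN, add_zero]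
    · rw [← hB]
      apply measure_mono
      rw [boxC634_eq142]
      exact Set.subset_preimage_image _ _
  rw [hμ', Measure.smul_apply, Measure.map_apply hmeas hbox, hP, smul_eq_mul]

example : H75.BoxCC75 := boxCC142

end Fermat.Agent.LT.T6.H142

end
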